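import Fermat.Agent.LT.A2.H798.CpxSpec

/-!
# Row LT, tower A2, station A2.03.1.1.10, leaf CX.02 `CX798.DiagC` (helper61)

OFF-MAIN.  `diagC_h61 : CX798.DiagC`, VERBATIM against
`Fermat/Agent/LT/A2/H798/CpxSpec.lean` (helper798@5f07fac26, sha256 8ca2dc507058b836; the spec
closure is vendored byte-identical).  Pure algebra on the closed form `FC`:

* `rowN (t(a) g) = rowN g / ‖a‖²`,
* `rowB (t(a) g) = (a / conj a) * rowB g`,
* `(a / conj a) * ‖a‖² = a²` and `z_i (a ξ) = a z_i (ξ)`.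

The hypothesis `AdmL` is not used (for `rowN g = 0` both sides vanish).
-/

set_option autoImplicit false

open scoped ComplexConjugate

noncomputable section

namespace Fermat.Agent.LT.A2.CX798.H61

open Fermat.Agent.LT.A2.CX798 Fermat.Agent.LT.A2.WX467

theorem rowN_diag_h61 (a : ℂ) (ha : a ≠ 0) (g : Matrix (Fin 2) (Fin 2) ℂ) :
    rowN (!![a, 0; 0, a⁻¹] * g) = rowN g / ‖a‖ ^ 2 := by
  have hna : ‖a‖ ≠ 0 := norm_ne_zero_iff.mpr ha
  unfold rowN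
  simp only [Matrix.mul_apply, Fin.sum_univ_two, Matrix.of_apply, Matrix.cons_val',
    Matrix.cons_val_zero, Matrix.cons_val_one, Matrix.cons_val_fin_one, zero_mul, zero_add,
    norm_mul, norm_inv]
  field_simp

theorem rowB_diag_h61 (a : ℂ) (ha : a ≠ 0) (g : Matrix (Fin 2) (Fin 2) ℂ) :
    rowB (!![a, 0; 0, a⁻¹] * g) = (a / conj a) * rowB g := by
  have hca : conj a ≠ 0 := (map_ne_zero (starRingEnd ℂ)).mpr ha
  unfold rowB
  simp only [Matrix.mul_apply, Fin.sum_univ_two, Matrix.of_apply, Matrix.cons_val',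
    Matrix.cons_val_zero, Matrix.cons_val_one, Matrix.cons_val_fin_one, zero_mul, zero_add,
    add_zero, map_mul, map_inv₀]
  field_simp

theorem normSq_cast_h61 (a : ℂ) : ((‖a‖ ^ 2 : ℝ) : ℂ) = a * conj a := by
  rw [Complex.mul_conj, Complex.normSq_eq_norm_sq]

/-- **CX.02 DIAG**, without the admissibility hypothesis. -/
theorem FC_diag_h61 (c ω₁ ω₂ a : ℂ) (ha : a ≠ 0) (g m : Matrix (Fin 2) (Fin 2) ℂ)
    (ξ : ℂ × ℂ) :
    FC c ω₁ ω₂ (!![a, 0; 0, a⁻¹] * g) m ξ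
      = (1 : ℂ) * ((‖a‖ ^ 2 : ℝ) : ℂ) * FC c ω₁ ω₂ g m (a • ξ) := by
  have hna : ‖a‖ ≠ 0 := norm_ne_zero_iff.mpr ha
  have hca : conj a ≠ 0 := (map_ne_zero (starRingEnd ℂ)).mpr ha
  unfold FC
  rw [rowN_diag_h61 a ha, rowB_diag_h61 a ha]
  set N : ℝ := rowN g with hN
  set B : ℂ := rowB g with hB
  set l₁ : ℂ := lam ω₁ m with hl₁
  set l₂ : ℂ := lam ω₂ m with hl₂
  have h1 : (a • ξ).1 = a * ξ.1 := rfl
  have h2 : (a • ξ).2 = a * ξ.2 := rfl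
  rw [h1, h2]
  set z₁ : ℂ := ξ.1 + ω₁ * ξ.2 with hz₁
  set z₂ : ℂ := ξ.1 + ω₂ * ξ.2 with hz₂
  have e1 : a * ξ.1 + ω₁ * (a * ξ.2) = a * z₁ := by rw [hz₁]; ring
  have e2 : a * ξ.1 + ω₂ * (a * ξ.2) = a * z₂ := by rw [hz₂]; ring
  rw [e1, e2]
  -- the coefficient
  have hcoef : ‖l₁ * l₂‖ / (N / ‖a‖ ^ 2) = ‖a‖ ^ 2 * (‖l₁ * l₂‖ / N) := by
    rw [div_div_eq_mul_div]; ring
  -- the real part of the exponent
  have hre : -(2 * Real.pi * ‖c‖ * (‖l₂ * z₁‖ ^ 2 + ‖l₁ * z₂‖ ^ 2) / (N / ‖a‖ ^ 2))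
      = -(2 * Real.pi * ‖c‖ * (‖l₂ * (a * z₁)‖ ^ 2 + ‖l₁ * (a * z₂)‖ ^ 2) / N) := by
    rw [div_div_eq_mul_div]
    simp only [norm_mul]
    ring
  -- the imaginary part of the exponent
  have him : (c * (a / conj a * B) * (z₁ * z₂)).re / (N / ‖a‖ ^ 2)
      = (c * B * (a * z₁ * (a * z₂))).re / N := by
    rw [div_div_eq_mul_div]
    congr 1
    have hprod : c * B * (a * z₁ * (a * z₂))
        = c * (a / conj a * B) * (z₁ * z₂) * ((‖a‖ ^ 2 : ℝ) : ℂ) := by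
      rw [normSq_cast_h61]
      field_simp
    rw [hprod, Complex.re_mul_ofReal]
  rw [hcoef, hre, him]
  push_cast
  ring

/-- **CX.02 DIAG**: `CX798.DiagC`, verbatim. -/
theorem diagC_h61 : DiagC := by
  intro c ω₁ ω₂ a ha g m ξ _
  exact FC_diag_h61 c ω₁ ω₂ a ha g m ξ

end Fermat.Agent.LT.A2.CX798.H61

end
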